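/-
S28 (Igusa), node W2a: the level-one `q`-expansion principle over a subring.
A holomorphic `SL(2,ℤ)`-invariant function on `ℍ`, meromorphic at `i∞`, whose Laurent
`q`-expansion has all its coefficients in a subring `R ⊆ ℂ`, is a polynomial in `j` with
coefficients in `R`.
-/
import Mathlib
import Fermat.Agent.S24.KleinJ
import Fermat.Agent.S24.Bridge.LaurentQ

set_option autoImplicit false

open UpperHalfPlane Polynomial
open Fermat.Agent.S24

namespace Fermat.Agent.S28

/-! ### the Laurent expansion of a polynomial in `j` -/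

theorem qp_hasLaurentQ_pow {g : ℍ → ℂ} {f : LaurentSeries ℂ} (h : br_HasLaurentQ g f) (n : ℕ) :
    br_HasLaurentQ (g ^ n) (f ^ n) := by
  induction n with
  | zero =>
    simp only [pow_zero]
    have := br_HasLaurentQ.const 1
    rwa [map_one] at this
  | succ n ih =>
    rw [pow_succ, pow_succ]
    exact ih.mul h

theorem qp_hasLaurentQ_eval (P : ℂ[X]) :
    br_HasLaurentQ (fun z => P.eval (kleinJ z)) (aeval br_jqC P) := by
  induction P using Polynomial.induction_on' with
  | add p q hp hq =>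
    have := hp.add hq
    rw [map_add]
    convert this using 1
    ext z
    simp
  | monomial n a =>
    have h1 := (br_HasLaurentQ.const a).mul (qp_hasLaurentQ_pow br_HasLaurentQ_kleinJ n)
    rw [aeval_monomial]
    convert h1 using 1
    · ext z
      simp [eval_monomial]
    · rw [HahnSeries.algebraMap_apply', PowerSeries.algebraMap_apply, Algebra.algebraMap_self,
        RingHom.id_apply, HahnSeries.ofPowerSeries_C]

/-! ### Laurent series with coefficients in a subring -/

/-- Laurent series over `ℂ` all of whose coefficients lie in the subring `R`. -/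
noncomputable def qp_coeffsIn (R : Subring ℂ) : Subring (LaurentSeries ℂ) :=
  (ModularCurve.coeffMap R.subtype).range

theorem qp_mem_coeffsIn_iff (R : Subring ℂ) (L : LaurentSeries ℂ) :
    L ∈ qp_coeffsIn R ↔ ∀ i, L.coeff i ∈ R := by
  constructor
  · rintro ⟨x, rfl⟩ i
    rw [ModularCurve.coeffMap_coeff]
    exact (x.coeff i).2
  · intro h
    refine ⟨⟨fun i => ⟨L.coeff i, h i⟩, ?_⟩, ?_⟩
    · refine L.isPWO_support.mono fun i hi => ?_
      simp only [Function.mem_support, ne_eq] at hi ⊢
      intro h0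
      apply hi
      ext
      simpa using h0
    · ext i
      rw [ModularCurve.coeffMap_coeff]
      rfl

theorem qp_jqC_coeff (k : ℤ) : ∃ n : ℤ, br_jqC.coeff k = (n : ℂ) := by
  rw [br_jqC, ModularCurve.coeffMap_coeff, ModularCurve.jq, HahnSeries.coeff_single_mul, one_mul,
    br_ofPowerSeries_coeff_natCast]
  split_ifs with h
  · rw [ModularCurve.jNumQ, PowerSeries.coeff_map]
    exact ⟨PowerSeries.coeff (k - -1).toNat ModularCurve.jNum, by simp⟩
  · exact ⟨0, by simp⟩

theorem qp_jqC_mem (R : Subring ℂ) : br_jqC ∈ qp_coeffsIn R := by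
  rw [qp_mem_coeffsIn_iff]
  intro i
  obtain ⟨n, hn⟩ := qp_jqC_coeff i
  rw [hn]
  exact intCast_mem R n

theorem qp_C_mem (R : Subring ℂ) {c : ℂ} (hc : c ∈ R) :
    (HahnSeries.C c : LaurentSeries ℂ) ∈ qp_coeffsIn R := by
  rw [qp_mem_coeffsIn_iff]
  intro i
  rw [HahnSeries.C_apply, HahnSeries.coeff_single]
  split_ifs
  · exact hc
  · exact zero_mem R

theorem qp_jqC_pow_coeff_self (n : ℕ) : (br_jqC ^ n).coeff (-(n : ℤ)) = 1 := by
  rw [br_jqC, ← map_pow, ModularCurve.coeffMap_coeff, ModularCurve.coeff_jq_pow_self, map_one]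

theorem qp_jqC_pow_coeff_of_lt {n : ℕ} {m : ℤ} (hm : m < -(n : ℤ)) : (br_jqC ^ n).coeff m = 0 := by
  rw [br_jqC, ← map_pow, ModularCurve.coeffMap_coeff, ModularCurve.coeff_jq_pow_of_lt hm, map_zero]

theorem qp_algebraMap_eq (c : ℂ) : algebraMap ℂ (LaurentSeries ℂ) c = HahnSeries.C c := by
  rw [HahnSeries.algebraMap_apply', PowerSeries.algebraMap_apply, Algebra.algebraMap_self,
    RingHom.id_apply, HahnSeries.ofPowerSeries_C]

/-- the coefficient of `q ^ (-deg P)` in `P(j)` is the leading coefficient of `P` -/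
theorem qp_aeval_coeff_neg_natDegree (P : ℂ[X]) :
    (aeval br_jqC P).coeff (-(P.natDegree : ℤ)) = P.leadingCoeff := by
  rw [aeval_def, eval₂_eq_sum_range, HahnSeries.coeff_sum, Finset.sum_range_succ]
  have hsm : ∀ (c : ℂ) (x : LaurentSeries ℂ) (i : ℤ),
      (algebraMap ℂ (LaurentSeries ℂ) c * x).coeff i = c * x.coeff i := by
    intro c x i
    rw [qp_algebraMap_eq, HahnSeries.C_apply, HahnSeries.coeff_single_mul, sub_zero]
  rw [Finset.sum_eq_zero, zero_add, hsm, qp_jqC_pow_coeff_self, mul_one, Polynomial.leadingCoeff]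
  intro k hk
  rw [hsm, qp_jqC_pow_coeff_of_lt, mul_zero]
  have := Finset.mem_range.mp hk
  omega

/-- **the formal `q`-expansion principle**: if `P(j)` has all its `q`-coefficients in `R`, then
`P` has all its coefficients in `R`. -/
theorem qp_coeff_mem_of_aeval (R : Subring ℂ) (P : ℂ[X])
    (h : ∀ i, (aeval br_jqC P).coeff i ∈ R) : ∀ i, P.coeff i ∈ R := by
  induction hn : P.support.card using Nat.strong_induction_on generalizing P with
  | _ n ih =>
    by_cases hP : P = 0
    · intro i
      rw [hP, coeff_zero]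
      exact zero_mem R
    · have hlc : P.leadingCoeff ∈ R := by
        rw [← qp_aeval_coeff_neg_natDegree]
        exact h _
      have hcard : P.eraseLead.support.card < n := by
        rw [← hn]
        exact eraseLead_support_card_lt hP
      have h1 : aeval br_jqC P.eraseLead ∈ qp_coeffsIn R := by
        have e2 : aeval br_jqC P
            = aeval br_jqC P.eraseLead + HahnSeries.C P.leadingCoeff * br_jqC ^ P.natDegree := by
          conv_lhs => rw [← eraseLead_add_C_mul_X_pow P]
          rw [map_add, map_mul, map_pow, aeval_X, aeval_C, qp_algebraMap_eq]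
        have e : aeval br_jqC P.eraseLead
            = aeval br_jqC P - HahnSeries.C P.leadingCoeff * br_jqC ^ P.natDegree := by
          rw [e2, add_sub_cancel_right]
        rw [e]
        exact sub_mem ((qp_mem_coeffsIn_iff R _).mpr h)
          (mul_mem (qp_C_mem R hlc) (pow_mem (qp_jqC_mem R) _))
      have h2 := ih _ hcard P.eraseLead ((qp_mem_coeffsIn_iff R _).mp h1) rfl
      intro i
      by_cases hi : i = P.natDegree
      · rw [hi]
        exact hlc
      · rw [← eraseLead_coeff_of_ne i hi]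
        exact h2 i

/-! ### the `q`-expansion principle in level one -/

/-- **Level-one `q`-expansion principle over a subring.**  A holomorphic `SL(2,ℤ)`-invariant
function with a pole of order `≤ m` at `i∞` whose Laurent `q`-expansion has all its coefficients in
the subring `R` is a polynomial of degree `≤ m` in `j` with coefficients in `R`. -/
theorem qp_exists_polynomial (R : Subring ℂ) {m : ℕ} {f : ℍ → ℂ} (hf : IsWeakLevelOne m f)
    {L : LaurentSeries ℂ} (hL : br_HasLaurentQ f L) (hR : ∀ i, L.coeff i ∈ R) :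
    ∃ P : ℂ[X], (∀ i, P.coeff i ∈ R) ∧ P.natDegree ≤ m ∧ ∀ z, f z = P.eval (kleinJ z) := by
  obtain ⟨P, hdeg, hP⟩ := exists_polynomial_of_isWeakLevelOne m f hf
  refine ⟨P, ?_, hdeg, hP⟩
  have h1 : f = fun z => P.eval (kleinJ z) := funext hP
  have h2 : L = aeval br_jqC P := by
    have h3 := qp_hasLaurentQ_eval P
    rw [← h1] at h3
    exact hL.unique_right h3
  apply qp_coeff_mem_of_aeval R P
  rw [← h2]
  exact hR

/-- the same with the polynomial living over `R` -/
theorem qp_exists_polynomial' (R : Subring ℂ) {m : ℕ} {f : ℍ → ℂ} (hf : IsWeakLevelOne m f)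
    {L : LaurentSeries ℂ} (hL : br_HasLaurentQ f L) (hR : ∀ i, L.coeff i ∈ R) :
    ∃ P : R[X], P.natDegree ≤ m ∧ ∀ z, f z = (P.map R.subtype).eval (kleinJ z) := by
  obtain ⟨P, hc, hdeg, hP⟩ := qp_exists_polynomial R hf hL hR
  have hlift : P ∈ Polynomial.lifts R.subtype := by
    rw [Polynomial.lifts_iff_coeff_lifts]
    intro n
    exact ⟨⟨P.coeff n, hc n⟩, rfl⟩
  obtain ⟨Q, hQ, hQdeg⟩ := Polynomial.exists_natDegree_eq_of_mem_lifts hlift
  refine ⟨Q, hQdeg ▸ hdeg, fun z => ?_⟩
  rw [hQ]
  exact hP z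

/-- an `SL(2,ℤ)`-invariant function with a Laurent `q`-expansion is weakly modular of level one -/
theorem qp_isWeakLevelOne_of_inv {f : ℍ → ℂ}
    (hinv : ∀ (γ : Matrix.SpecialLinearGroup (Fin 2) ℤ) (z : ℍ), f (γ • z) = f z)
    {L : LaurentSeries ℂ} (hL : br_HasLaurentQ f L) : ∃ m : ℕ, IsWeakLevelOne m f := by
  have hmd := hL.mdiff
  obtain ⟨m, hm, -⟩ := hL
  exact ⟨m, hmd, hinv, hm.bdd⟩

/-- **consumer form**: an `SL(2,ℤ)`-invariant function on `ℍ` with a Laurent `q`-expansion `L`
all of whose coefficients lie in the subring `R` is `P(j)` for a polynomial `P` over `R`, and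
`L = P(jq)`. -/
theorem qp_exists_polynomial_of_inv (R : Subring ℂ) {f : ℍ → ℂ}
    (hinv : ∀ (γ : Matrix.SpecialLinearGroup (Fin 2) ℤ) (z : ℍ), f (γ • z) = f z)
    {L : LaurentSeries ℂ} (hL : br_HasLaurentQ f L) (hR : ∀ i, L.coeff i ∈ R) :
    ∃ P : R[X], (∀ z, f z = (P.map R.subtype).eval (kleinJ z)) ∧
      aeval br_jqC (P.map R.subtype) = L := by
  obtain ⟨m, hm⟩ := qp_isWeakLevelOne_of_inv hinv hL
  obtain ⟨P, -, hP⟩ := qp_exists_polynomial' R hm hL hR
  refine ⟨P, hP, ?_⟩
  have h3 := qp_hasLaurentQ_eval (P.map R.subtype)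
  rw [← funext hP] at h3
  exact h3.unique_right hL

/-- the subring of `ℂ` of integers -/
theorem qp_exists_polynomial_int {f : ℍ → ℂ}
    (hinv : ∀ (γ : Matrix.SpecialLinearGroup (Fin 2) ℤ) (z : ℍ), f (γ • z) = f z)
    {L : LaurentSeries ℂ} (hL : br_HasLaurentQ f L) (hR : ∀ i, ∃ n : ℤ, L.coeff i = n) :
    ∃ P : ℤ[X], ∀ z, f z = (P.map (Int.castRingHom ℂ)).eval (kleinJ z) := by
  obtain ⟨P, hP, -⟩ := qp_exists_polynomial_of_inv (Int.castRingHom ℂ).range hinv hL
    (fun i => by obtain ⟨n, hn⟩ := hR i; exact ⟨n, by rw [hn]; rfl⟩)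
  have hlift : P.map (Int.castRingHom ℂ).range.subtype ∈ Polynomial.lifts (Int.castRingHom ℂ) := by
    rw [Polynomial.lifts_iff_coeff_lifts]
    intro n
    rw [coeff_map]
    exact (P.coeff n).2
  obtain ⟨Q, hQ⟩ := (Polynomial.mem_lifts _).mp hlift
  exact ⟨Q, fun z => by rw [hQ]; exact hP z⟩

end Fermat.Agent.S28
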