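/-
S28 (Igusa), node W2a, part 2: the level-one `q`-expansion principle in the form consumed by
(SYM): the hypothesis is on the germ `fi_germ N h` (Laurent expansion of `h` in
`t = exp(2πi z / N)`) of `S24/FamilyInfty.lean`.
Also the bridge between `gm_lq` (S24/Germ) and `br_HasLaurentQ` (S24/Bridge).
-/
import Mathlib
import Fermat.Agent.S28.QExpPrinciple
import Fermat.Agent.S24.FamilyInfty

set_option autoImplicit false

open UpperHalfPlane Polynomial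
open scoped MatrixGroups Manifold
open Fermat.Agent.S24
open Fermat.Agent.S23.QF (IsQFun)
open Fermat.Agent.S23 (alphaN)

namespace Fermat.Agent.S28

/-! ### `gm_lq` versus `br_HasLaurentQ` -/

theorem qp_hasLaurentQ_lq {g : ℍ → ℂ} (hg : gm_IsMerQ g) : br_HasLaurentQ g (gm_lq g) := by
  obtain ⟨m, hm⟩ := hg
  refine ⟨m, hm, ?_⟩
  rw [gm_lq_eq hm, ← mul_assoc, HahnSeries.single_mul_single, add_neg_cancel, mul_one]
  rw [show (HahnSeries.single (0 : ℤ) (1 : ℂ) : LaurentSeries ℂ) = 1 from rfl, one_mul]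

theorem qp_isMerQ_of_hasLaurentQ {g : ℍ → ℂ} {f : LaurentSeries ℂ} (h : br_HasLaurentQ g f) :
    gm_IsMerQ g := by
  obtain ⟨m, hm, -⟩ := h
  exact ⟨m, hm⟩

theorem qp_lq_eq_of_hasLaurentQ {g : ℍ → ℂ} {f : LaurentSeries ℂ} (h : br_HasLaurentQ g f) :
    gm_lq g = f :=
  (qp_hasLaurentQ_lq (qp_isMerQ_of_hasLaurentQ h)).unique_right h

/-- `fi_germ N h` is the `q`-expansion of `h` with `q` replaced by `t ^ N` -/
theorem qp_fi_germ_eq (N : ℕ) [NeZero N] {h : ℍ → ℂ} {L : LaurentSeries ℂ}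
    (hL : br_HasLaurentQ h L) : fi_germ N h = ModularCurve.qExpand ℂ N L :=
  qp_lq_eq_of_hasLaurentQ (hL.comp_alphaN N)

theorem qp_fi_P_of_hasLaurentQ (N : ℕ) [NeZero N] {h : ℍ → ℂ} {L : LaurentSeries ℂ}
    (hL : br_HasLaurentQ h L) : fi_P N h :=
  qp_isMerQ_of_hasLaurentQ (hL.comp_alphaN N)

/-! ### from the germ in `t` to the pole order in `q` -/

theorem qp_bdd_of_fi_P (N : ℕ) [NeZero N] {h : ℍ → ℂ} {m : ℕ}
    (hQ : IsQFun (qH ^ m * fun τ => h (alphaN N • τ))) :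
    IsBoundedAtImInfty (qH ^ m * h) := by
  obtain ⟨M, A, hMA⟩ := isBoundedAtImInfty_iff.mp hQ.bdd
  refine isBoundedAtImInfty_iff.mpr ⟨M, (N : ℝ) * max A 0, fun z hz => ?_⟩
  set τ : ℍ := (alphaN N)⁻¹ • z with hτ
  have hz' : alphaN N • τ = z := by rw [hτ]; simp
  have hNpos : (0 : ℝ) < N := by exact_mod_cast Nat.pos_of_ne_zero (NeZero.ne N)
  have him : z.im = N * τ.im := by rw [← hz', br_im_alphaN_smul]
  have hA : A ≤ τ.im := by
    have h1 : (N : ℝ) * max A 0 ≤ N * τ.im := by rw [← him]; exact hz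
    exact (le_max_left A 0).trans (le_of_mul_le_mul_left h1 hNpos)
  have h1 := hMA τ hA
  simp only [Pi.mul_apply, Pi.pow_apply] at h1 ⊢
  rw [← hz', br_qH_alphaN_smul, hz']
  have hq : ‖qH τ‖ ≤ 1 := (Function.Periodic.norm_qParam_lt_one one_pos τ.im_pos).le
  have hN1 : 1 ≤ N := Nat.one_le_iff_ne_zero.mpr (NeZero.ne N)
  have e : (qH τ ^ N) ^ m * h z = qH τ ^ ((N - 1) * m) * (qH τ ^ m * h z) := by
    rw [← mul_assoc, ← pow_add, ← pow_mul]
    congr 2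
    have : N * m = (N - 1) * m + m := by
      conv_lhs => rw [show N = (N - 1) + 1 by omega]
      ring
    exact this
  rw [e, norm_mul, norm_pow]
  have h2 : ‖qH τ‖ ^ ((N - 1) * m) ≤ 1 := pow_le_one₀ (norm_nonneg _) hq
  calc ‖qH τ‖ ^ ((N - 1) * m) * ‖qH τ ^ m * h z‖
      ≤ 1 * ‖qH τ ^ m * h z‖ := by gcongr
    _ = ‖qH τ ^ m * h z‖ := one_mul _
    _ ≤ M := by rw [hz'] at h1; exact h1

theorem qp_isWeakLevelOne_of_germ (N : ℕ) [NeZero N] {h : ℍ → ℂ} (hm : MDiff h)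
    (hinv : ∀ (γ : SL(2, ℤ)) (z : ℍ), h (γ • z) = h z) (hP : fi_P N h) :
    ∃ m : ℕ, IsWeakLevelOne m h := by
  obtain ⟨m, hQ⟩ := hP
  exact ⟨m, hm, hinv, qp_bdd_of_fi_P N hQ⟩

/-- **(SYM) consumer form on germs** (shape requested by W2c): a holomorphic `SL(2,ℤ)`-invariant
function whose expansion in `t = exp(2πi z / N)` has all its coefficients in `R` is a polynomial
in `j` over `R`. -/
theorem qp_of_germ (N : ℕ) [NeZero N] (R : Subring ℂ) {h : ℍ → ℂ} (hm : MDiff h)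
    (hinv : ∀ (γ : SL(2, ℤ)) (z : ℍ), h (γ • z) = h z) (hP : fi_P N h)
    (hR : ∀ i, (fi_germ N h).coeff i ∈ R) :
    ∃ P : R[X], ∀ z, h z = (P.map R.subtype).eval (kleinJ z) := by
  obtain ⟨m, hW⟩ := qp_isWeakLevelOne_of_germ N hm hinv hP
  have hL : br_HasLaurentQ h (gm_lq h) := qp_hasLaurentQ_lq ⟨m, hW.isQFun⟩
  have hcoef : ∀ i, (gm_lq h).coeff i ∈ R := by
    intro i
    have := hR ((N : ℤ) * i)
    rwa [qp_fi_germ_eq N hL, ModularCurve.qExpand_coeff_mul] at this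
  obtain ⟨P, hP, -⟩ := qp_exists_polynomial_of_inv R hinv hL hcoef
  exact ⟨P, hP⟩

/-- the same, with the formal identity: the `t`-germ of `h` is `P(j(t^N))`. -/
theorem qp_of_germ' (N : ℕ) [NeZero N] (R : Subring ℂ) {h : ℍ → ℂ} (hm : MDiff h)
    (hinv : ∀ (γ : SL(2, ℤ)) (z : ℍ), h (γ • z) = h z) (hP : fi_P N h)
    (hR : ∀ i, (fi_germ N h).coeff i ∈ R) :
    ∃ P : R[X], (∀ z, h z = (P.map R.subtype).eval (kleinJ z)) ∧
      fi_germ N h = ModularCurve.qExpand ℂ N (aeval br_jqC (P.map R.subtype)) := by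
  obtain ⟨m, hW⟩ := qp_isWeakLevelOne_of_germ N hm hinv hP
  have hL : br_HasLaurentQ h (gm_lq h) := qp_hasLaurentQ_lq ⟨m, hW.isQFun⟩
  have hcoef : ∀ i, (gm_lq h).coeff i ∈ R := by
    intro i
    have := hR ((N : ℤ) * i)
    rwa [qp_fi_germ_eq N hL, ModularCurve.qExpand_coeff_mul] at this
  obtain ⟨P, hP, hPL⟩ := qp_exists_polynomial_of_inv R hinv hL hcoef
  exact ⟨P, hP, by rw [hPL]; exact qp_fi_germ_eq N hL⟩

end Fermat.Agent.S28
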