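import Mathlib
import Fermat.Prelude.Def_ModularCurve_IgusaScheme

/-!
# S28 (Igusa): the scheme glue

The base change of the Igusa scheme `IgusaScheme N ℓ` (two affine charts glued along a common
localisation) along `Spec K ⟶ Spec ℤ_(ℓ)` is integral as soon as the base changes of the two chart
algebras are domains and the base change of the middle chart is nontrivial
(`ig_isIntegral_pullback`), resp. `j ⊗ 1 ≠ 0` in the base change of the finite chart
(`ig_isIntegral_pullback'`).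
-/

set_option autoImplicit false

open AlgebraicGeometry CategoryTheory CategoryTheory.Limits ModularCurve ModularCurve.IgusaScheme
open scoped TensorProduct

noncomputable section

namespace Fermat.Agent.S28

variable (N : ℕ) [NeZero N] (ℓ : ℕ) [Fact ℓ.Prime]

set_option quotPrecheck false in
local notation "ℤℓ" => ↥(GaloisRep.ratLocalizedAt ℓ)

/-- The two-chart open cover of the Igusa scheme. -/
def ig_cover : (ModularCurve.IgusaScheme N ℓ).OpenCover :=
  Scheme.Cover.mkOfCovers Bool (fun b => cond b (XFin N ℓ) (XInf N ℓ))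
    (fun b => match b with
      | true => ιFin N ℓ
      | false => ιInf N ℓ)
    (fun x => by
      rcases mem_range_ιFin_or_mem_range_ιInf N ℓ x with ⟨y, hy⟩ | ⟨y, hy⟩
      · exact ⟨true, y, hy⟩
      · exact ⟨false, y, hy⟩)
    (fun b => match b with
      | true => isOpenImmersion_ιFin N ℓ
      | false => isOpenImmersion_ιInf N ℓ)

variable (K : Type) [Field K] [Algebra ↥(GaloisRep.ratLocalizedAt ℓ) K]

/-- The base-change morphism `Spec K ⟶ Spec ℤ_(ℓ)`. -/
abbrev ig_base : Spec (CommRingCat.of K) ⟶ Spec (CommRingCat.of ℤℓ) :=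
  Spec.map (CommRingCat.ofHom (algebraMap ℤℓ K))

theorem ig_isIntegral_chart_fin (hFin : IsDomain (chartAlgFin N ℓ ⊗[ℤℓ] K)) :
    IsIntegral (pullback (ιFin N ℓ ≫ igusaTo N ℓ) (ig_base ℓ K)) := by
  have e : pullback (ιFin N ℓ ≫ igusaTo N ℓ) (ig_base ℓ K) ≅
      Spec (.of (chartAlgFin N ℓ ⊗[ℤℓ] K)) :=
    pullback.congrHom (ιFin_igusaTo N ℓ) rfl ≪≫ pullbackSpecIso ℤℓ (chartAlgFin N ℓ) K
  exact IsIntegral.of_isIso e.inv

theorem ig_isIntegral_chart_inf (hInf : IsDomain (chartAlgInf N ℓ ⊗[ℤℓ] K)) :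
    IsIntegral (pullback (ιInf N ℓ ≫ igusaTo N ℓ) (ig_base ℓ K)) := by
  have e : pullback (ιInf N ℓ ≫ igusaTo N ℓ) (ig_base ℓ K) ≅
      Spec (.of (chartAlgInf N ℓ ⊗[ℤℓ] K)) :=
    pullback.congrHom (ιInf_igusaTo N ℓ) rfl ≪≫ pullbackSpecIso ℤℓ (chartAlgInf N ℓ) K
  exact IsIntegral.of_isIso e.inv


/-- The comparison morphism from the base change of the middle chart to the base change of the
Igusa scheme. -/
def ig_midMap :
    Spec (.of (chartAlgMid N ℓ ⊗[ℤℓ] K)) ⟶ pullback (igusaTo N ℓ) (ig_base ℓ K) :=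
  (pullbackSpecIso ℤℓ (chartAlgMid N ℓ) K).inv ≫
    pullback.lift (pullback.fst _ _ ≫ fFin N ℓ ≫ ιFin N ℓ) (pullback.snd _ _) (by
      have h : Spec.map (CommRingCat.ofHom (algebraMap ℤℓ (chartAlgMid N ℓ))) =
          fFin N ℓ ≫ ιFin N ℓ ≫ igusaTo N ℓ := by
        rw [ιFin_igusaTo, ← Spec.map_comp, ← CommRingCat.ofHom_comp]
        congr 2
      rw [Category.assoc, Category.assoc, ← h, pullback.condition])

theorem ig_midMap_fst :
    ig_midMap N ℓ K ≫ pullback.fst _ _ =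
      (pullbackSpecIso ℤℓ (chartAlgMid N ℓ) K).inv ≫ pullback.fst _ _ ≫ fFin N ℓ ≫ ιFin N ℓ := by
  rw [ig_midMap, Category.assoc, pullback.lift_fst]


/-- **Scheme glue for S28.** If the base changes of the two charts are domains and the base change
of the middle chart is nontrivial, the base change of the Igusa scheme is integral. -/
theorem ig_isIntegral_pullback (hFin : IsDomain (chartAlgFin N ℓ ⊗[ℤℓ] K))
    (hInf : IsDomain (chartAlgInf N ℓ ⊗[ℤℓ] K))
    (hMid : Nontrivial (chartAlgMid N ℓ ⊗[ℤℓ] K)) :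
    IsIntegral (pullback (igusaTo N ℓ)
      (Spec.map (CommRingCat.ofHom (algebraMap ℤℓ K)))) := by
  let 𝒱 := Scheme.Pullback.openCoverOfLeft (ig_cover N ℓ) (igusaTo N ℓ) (ig_base ℓ K)
  have hint : ∀ b, IsIntegral (𝒱.X b) := by
    intro b
    cases b
    · exact ig_isIntegral_chart_inf N ℓ K hInf
    · exact ig_isIntegral_chart_fin N ℓ K hFin
  have : IsReduced (pullback (igusaTo N ℓ) (ig_base ℓ K)) := IsReduced.of_openCover _ 𝒱
  -- a point in the intersection of the two charts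
  obtain ⟨z₀⟩ : Nonempty (Spec (.of (chartAlgMid N ℓ ⊗[ℤℓ] K))) := inferInstance
  set z := ig_midMap N ℓ K z₀ with hz
  have hzfst : ∃ w : XMid N ℓ, pullback.fst (igusaTo N ℓ) (ig_base ℓ K) z =
      (fFin N ℓ ≫ ιFin N ℓ) w := by
    refine ⟨((pullbackSpecIso ℤℓ (chartAlgMid N ℓ) K).inv ≫ pullback.fst _ _) z₀, ?_⟩
    rw [hz, ← Scheme.Hom.comp_apply, ← Scheme.Hom.comp_apply, ig_midMap_fst, Category.assoc]
  have hrange : ∀ b, Set.range (𝒱.f b) =
      pullback.fst (igusaTo N ℓ) (ig_base ℓ K) ⁻¹' Set.range ((ig_cover N ℓ).f b) := by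
    intro b
    have := Scheme.Pullback.range_map ((ig_cover N ℓ).f b ≫ igusaTo N ℓ) (ig_base ℓ K)
      (igusaTo N ℓ) (ig_base ℓ K) ((ig_cover N ℓ).f b) (𝟙 _) (𝟙 _) (by simp) (by simp)
    simp at this
    exact this
  have hzmem : ∀ b, z ∈ Set.range (𝒱.f b) := by
    intro b
    rw [hrange b]
    obtain ⟨w, hw⟩ := hzfst
    cases b
    · refine ⟨fInf N ℓ w, ?_⟩
      rw [hw, glue_condition]
      rfl
    · refine ⟨fFin N ℓ w, ?_⟩
      rw [hw]
      rfl
  -- irreducibility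
  have hirr : ∀ b, IsPreirreducible (Set.range (𝒱.f b)) := by
    intro b
    have := hint b
    rw [← Set.image_univ]
    exact (IrreducibleSpace.isIrreducible_univ (𝒱.X b)).isPreirreducible.image _
      (𝒱.f b).continuous.continuousOn
  have hpre : IsPreirreducible (Set.univ : Set ↥(pullback (igusaTo N ℓ) (ig_base ℓ K))) := by
    refine IsPreirreducible.of_subset_iUnion (U := fun b => (𝒱.f b).opensRange) ?_ ?_
      isOpen_univ ?_
    · intro b b' _ hdisj
      have hmem : z ∈ (𝒱.f b).opensRange ⊓ (𝒱.f b').opensRange := ⟨hzmem b, hzmem b'⟩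
      exact hdisj.le_bot hmem
    · intro b
      exact hirr b
    · intro x _
      obtain ⟨b, y, hy⟩ := 𝒱.exists_eq x
      exact Set.mem_iUnion.mpr ⟨b, y, hy⟩
  have : IrreducibleSpace ↥(pullback (igusaTo N ℓ) (ig_base ℓ K)) :=
    { toPreirreducibleSpace := ⟨hpre⟩
      toNonempty := ⟨z⟩ }
  exact isIntegral_of_irreducibleSpace_of_isReduced _

/-- The base change of the middle chart is the localisation of the base change of the finite
chart away from `j ⊗ 1`; hence it is nontrivial as soon as the latter is a domain in which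
`j ⊗ 1 ≠ 0`. -/
theorem ig_nontrivial_mid (hFin : IsDomain (chartAlgFin N ℓ ⊗[ℤℓ] K))
    (hj : (jChartFin N ℓ ⊗ₜ[ℤℓ] (1 : K)) ≠ 0) :
    Nontrivial (chartAlgMid N ℓ ⊗[ℤℓ] K) := by
  let _ := (inclFin N ℓ).toRingHom.toAlgebra
  have : IsScalarTower ℤℓ (chartAlgFin N ℓ) (chartAlgMid N ℓ) :=
    IsScalarTower.of_algebraMap_eq fun a => ((inclFin N ℓ).commutes a).symm
  have := isLocalization_away_inclFin N ℓ
  let φ : chartAlgFin N ℓ ⊗[ℤℓ] K →ₐ[chartAlgFin N ℓ] chartAlgMid N ℓ ⊗[ℤℓ] K :=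
    Algebra.TensorProduct.map (Algebra.ofId _ _) (AlgHom.id _ _)
  algebraize [φ.toRingHom]
  have hloc : IsLocalization (Algebra.algebraMapSubmonoid (chartAlgFin N ℓ ⊗[ℤℓ] K)
      (Submonoid.powers (jChartFin N ℓ))) (chartAlgMid N ℓ ⊗[ℤℓ] K) := by
    refine IsLocalization.tensorProduct_tensorProduct ℤℓ K _ _ ?_
    ext; simp [RingHom.algebraMap_toAlgebra, φ]
  have hle : Algebra.algebraMapSubmonoid (chartAlgFin N ℓ ⊗[ℤℓ] K)
      (Submonoid.powers (jChartFin N ℓ)) ≤ nonZeroDivisors (chartAlgFin N ℓ ⊗[ℤℓ] K) := by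
    rintro _ ⟨_, ⟨n, rfl⟩, rfl⟩
    rw [map_pow]
    exact pow_mem (mem_nonZeroDivisors_of_ne_zero (by simpa using hj)) n
  refine ⟨⟨0, 1, fun h01 => ?_⟩⟩
  have h := (IsLocalization.eq_iff_exists (Algebra.algebraMapSubmonoid (chartAlgFin N ℓ ⊗[ℤℓ] K)
      (Submonoid.powers (jChartFin N ℓ))) (chartAlgMid N ℓ ⊗[ℤℓ] K) (x := 0) (y := 1)).mp
      (by rw [map_zero, map_one]; exact h01)
  obtain ⟨c, hc⟩ := h
  rw [mul_zero, mul_one] at hc
  exact (nonZeroDivisors.ne_zero (hle c.2)) hc.symm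


/-- **Scheme glue for S28, second form.** The nontriviality of the middle chart is replaced by
`j ⊗ 1 ≠ 0` in the base change of the finite chart. -/
theorem ig_isIntegral_pullback' (hFin : IsDomain (chartAlgFin N ℓ ⊗[ℤℓ] K))
    (hInf : IsDomain (chartAlgInf N ℓ ⊗[ℤℓ] K))
    (hj : (jChartFin N ℓ ⊗ₜ[ℤℓ] (1 : K)) ≠ 0) :
    IsIntegral (pullback (igusaTo N ℓ)
      (Spec.map (CommRingCat.ofHom (algebraMap ℤℓ K)))) :=
  ig_isIntegral_pullback N ℓ K hFin hInf (ig_nontrivial_mid N ℓ K hFin hj)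

end Fermat.Agent.S28
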